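import Fermat.Agent.S36.Mod3.H27.QepAbs

/-!
# S36 / MOD3, leaf QEP (helper27): completeness of the sheets from the tower, abstract part

* `chart_eq_of_mem` : `x ∈ chart R {y}`, `y ∈ chart R {x}` ⟹ the two charts coincide.
* `isSheet_of_chart_eq` : **change of coordinate** — a sheet of `x` is a sheet of `y` as soon as
  `x` and `y` have the same chart (going down, via `S36.H193.isSheet_of_minimal`).
* `isSheet_comap` : `IsSheet w (α x') V → IsSheet w x' (V.comap α)`.
* `complete_of_tower` : if the sheets of the lower level are `V₁'`, `V₂'`, the restriction of a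
  sheet is a sheet, and `V₁, V₂` (resp. `V₃`) are the only sheets over `V₁'` (resp. `V₂'`), then
  every sheet of the upper level is one of `V₁, V₂, V₃`.
* `qep3_of_tower` : the conclusion `Eng.Qep3` for both charts.
-/

set_option autoImplicit false
set_option linter.style.haveILetI false
set_option linter.unusedSectionVars false

namespace Fermat.Agent.S36.Mod3.H27

open Polynomial
open Fermat.Agent.A2.H12 (IsSheet)
open Fermat.Agent.S18.H138
open Fermat.Agent.S36.H193 (isSheet_of_minimal centreW mem_centreW sheet_chart_le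
  centre_mem_minimalPrimes)
open Fermat.Agent.S36.Eng

universe u

section Charts

variable {R : Type*} [CommRing R] {F : Type*} [Field F] [Algebra R F]

/-- An element integral over a chart lies in the chart. -/
theorem mem_chart_of_isIntegral_chart27 {S : Set F} {y : F} (hy : IsIntegral (chart R S) y) :
    y ∈ chart R S := by
  rw [mem_chart]
  have h1 : IsIntegral (integralClosure (Algebra.adjoin R S) F) y := hy
  exact isIntegral_trans (R := Algebra.adjoin R S) (A := integralClosure (Algebra.adjoin R S) F)
    y h1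

/-- If `S ⊆ chart R T` then `chart R S ≤ chart R T`. -/
theorem chart_le_of_subset {S T : Set F} (h : S ⊆ chart R T) : chart R S ≤ chart R T := by
  intro f hf
  apply mem_chart_of_isIntegral_chart27
  exact isIntegral_of_le (Algebra.adjoin_le h) (mem_chart.1 hf)

/-- Two coordinates, each integral over the other, have the same chart. -/
theorem chart_eq_of_mem {x y : F} (hxy : x ∈ chart R ({y} : Set F))
    (hyx : y ∈ chart R ({x} : Set F)) : chart R ({x} : Set F) = chart R ({y} : Set F) :=
  le_antisymm (chart_le_of_subset (Set.singleton_subset_iff.2 hxy))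
    (chart_le_of_subset (Set.singleton_subset_iff.2 hyx))

end Charts

section Coord

variable {R : Type u} [CommRing R] [IsDomain R] [IsIntegrallyClosed R[X]]
  {F : Type u} [Field F] [Algebra R F]

/-- **Change of coordinate for sheets.** -/
theorem isSheet_of_chart_eq {w : R} (hw : Prime w) {x y : F} (hy : Transcendental R y)
    (hxy : x ∈ chart R ({y} : Set F)) (hyx : y ∈ chart R ({x} : Set F))
    {V : ValuationSubring F} (hV : IsSheet w x V) : IsSheet w y V := by
  have heq := chart_eq_of_mem hxy hyx
  refine isSheet_of_minimal w hw hy (chart R ({x} : Set F)) (fun f => ?_)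
    (centreW V (chart R ({x} : Set F)) (sheet_chart_le hV)) (centre_mem_minimalPrimes hV) V
    (sheet_chart_le hV) (fun b => (mem_centreW V _ (sheet_chart_le hV) b).symm)
  rw [heq]
  exact mem_chart

end Coord

section Comap

variable {R : Type u} [CommRing R] {F F' : Type u} [Field F] [Algebra R F] [Field F']
  [Algebra R F']

/-- The restriction of a sheet along a ring homomorphism over `R`. -/
theorem isSheet_comap (α : F' →+* F) (hα : ∀ r : R, α (algebraMap R F' r) = algebraMap R F r)
    {w : R} {x' : F'} {V : ValuationSubring F} (hV : IsSheet w (α x') V) :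
    IsSheet w x' (V.comap α) := by
  have haev : ∀ P : R[X], α (aeval x' P) = aeval (α x') P := by
    intro P
    rw [aeval_def, aeval_def, hom_eval₂]
    congr 1
    ext r
    exact hα r
  obtain ⟨h1, h2, h3, h4⟩ := hV
  refine ⟨fun r => ?_, h2, ?_, fun P hP => ?_⟩
  · show α (algebraMap R F' r) ∈ V
    rw [hα]
    exact h1 r
  · rw [ValuationSubring.mem_nonunits_iff_or] at h3 ⊢
    rcases h3 with h3 | h3
    · left
      rw [← hα] at h3
      exact (map_eq_zero α).1 h3
    · right
      intro hc
      apply h3
      have : α ((algebraMap R F' w)⁻¹) ∈ V := hc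
      rwa [map_inv₀, hα] at this
  · show α ((aeval x' P)⁻¹) ∈ V
    rw [map_inv₀, haev]
    exact h4 P hP

end Comap

section Tower

variable {R : Type u} [CommRing R] [IsDomain R] [IsNoetherianRing R] [IsIntegrallyClosed R[X]]
  {F F' : Type u} [Field F] [CharZero F] [Algebra R F] [Field F'] [Algebra R F']

/-- **Completeness from the tower.** -/
theorem complete_of_tower {w : R} (hw : Prime w) (α : F' →+* F)
    (hα : ∀ r : R, α (algebraMap R F' r) = algebraMap R F r) {x : F} {x' : F'}
    (hx' : Transcendental R (α x'))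
    (hc₁ : x ∈ chart R ({α x'} : Set F)) (hc₂ : α x' ∈ chart R ({x} : Set F))
    (V₁ V₂ V₃ : ValuationSubring F) (V₁' V₂' : ValuationSubring F')
    (hS' : ∀ V' : ValuationSubring F', IsSheet w x' V' → V' = V₁' ∨ V' = V₂')
    (hE₁ : ∀ V : ValuationSubring F, IsSheet w x V → V.comap α = V₁' → V = V₁ ∨ V = V₂)
    (hE₂ : ∀ V : ValuationSubring F, IsSheet w x V → V.comap α = V₂' → V = V₃) :
    ∀ V : ValuationSubring F, IsSheet w x V → V = V₁ ∨ V = V₂ ∨ V = V₃ := by
  intro V hV
  have h1 : IsSheet w (α x') V := isSheet_of_chart_eq hw hx' hc₁ hc₂ hV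
  have h2 : IsSheet w x' (V.comap α) := isSheet_comap α hα h1
  rcases hS' _ h2 with h | h
  · rcases hE₁ V hV h with h | h
    · exact Or.inl h
    · exact Or.inr (Or.inl h)
  · exact Or.inr (Or.inr (hE₂ V hV h))

/-- **`Qep3` for both charts from the tower.** -/
theorem qep3_of_tower (hinjR : Function.Injective (algebraMap R F)) {w : R} (hw : Prime w)
    (α : F' →+* F) (hα : ∀ r : R, α (algebraMap R F' r) = algebraMap R F r) {x : F} {x' : F'}
    (hx : Transcendental R x) [FiniteDimensional (baseField R x) F]
    (hx' : Transcendental R (α x'))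
    (hc₁ : x ∈ chart R ({α x'} : Set F)) (hc₂ : α x' ∈ chart R ({x} : Set F))
    (V₁ V₂ V₃ : ValuationSubring F) (V₁' V₂' : ValuationSubring F')
    (hS' : ∀ V' : ValuationSubring F', IsSheet w x' V' → V' = V₁' ∨ V' = V₂')
    (hE₁ : ∀ V : ValuationSubring F, IsSheet w x V → V.comap α = V₁' → V = V₁ ∨ V = V₂)
    (hE₂ : ∀ V : ValuationSubring F, IsSheet w x V → V.comap α = V₂' → V = V₃) :
    Qep3 w (chart R ({x} : Set F)) V₁ V₂ V₃ ∧ Qep3 w (chart R ({x⁻¹} : Set F)) V₁ V₂ V₃ :=
  qep3_of_complete hinjR hw hx V₁ V₂ V₃
    (complete_of_tower hw α hα hx' hc₁ hc₂ V₁ V₂ V₃ V₁' V₂' hS' hE₁ hE₂)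

end Tower

end Fermat.Agent.S36.Mod3.H27
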