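import Fermat.Agent.S36.Mod3.H27.SheetsLow
import Fermat.Agent.S36.Mod3.SpecVT
import Fermat.Agent.S36.Mod3.H189.ChartLeaf
import Fermat.Agent.S36.Mod3.H439.FF
import Fermat.Agent.S36.H747.QepUp

/-!
# S36 / MOD3, leaf QEP (helper27): `leafQep_of_vt : LeafVT → LeafQep`

ROUTE B (uniform for the finite chart and the chart at infinity):

* every height-one prime of a chart containing `w` is the centre of a sheet, so by the algebraic
  Hartogs lemma `Qep3` follows from COMPLETENESS of `{V₁, V₂, V₃}` (`QepAbs.lean`);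
* completeness: a sheet `V` of level `M q q` (coordinate `x = j j_q j_{q²}`) is a sheet for the
  coordinate `α x' = j j_q` (same chart: `chart_α`, `int_α` of helper189), so `V.comap α` is a
  sheet of level `M q`, hence `V₁'` or `V₂'` (`SheetsLow.lean`, from S1 of cell A2), hence `V` is
  `V₁`, `V₂` or `V₃` (`LeafVT.only_α₁`, `LeafVT.only_α₃`).

The only hypothesis is the valuation-level hub `LeafVT` (fields `only_α₁`, `only_α₃`); `LeafFF` and
the integrality half of `LeafChart` are taken from main (helper439, helper189).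
-/

set_option autoImplicit false
set_option linter.style.haveILetI false
set_option linter.unusedSectionVars false
set_option synthInstance.maxHeartbeats 400000
set_option maxHeartbeats 1600000

noncomputable section

namespace Fermat.Agent.S36.Mod3.H27

open Polynomial ModularCurve
open Fermat.Agent.A2.H12 (IsSheet)
open Fermat.Agent.S18.H138
open Fermat.Agent.A2.Mod
open Fermat.Agent.S36.Eng

/-- **`LeafQep` from the completeness fields** `only_α₁`, `only_α₃`, restricted to sheets. -/
theorem leafQep_of_only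
    (h : Mod3.Leaf fun P E M q _ _ _ w V₁' V₂' V₁ V₂ V₃ =>
      (∀ V : ValuationSubring (FE E (M * q * q)), IsSheet w (Mod3.x3E E M q) V →
        V.comap (αE E (M * q) q : FE E (M * q) →+* FE E (M * q * q)) = V₁' → V = V₁ ∨ V = V₂) ∧
      (∀ V : ValuationSubring (FE E (M * q * q)), IsSheet w (Mod3.x3E E M q) V →
        V.comap (αE E (M * q) q : FE E (M * q) →+* FE E (M * q * q)) = V₂' → V = V₃)) :
    Mod3.LeafQep := by
  intro P E M q _ _ _ w hS V₁' V₂' V₁ V₂ V₃ W' W hO
  obtain ⟨hE₁, hE₂⟩ := h P E M q w hS V₁' V₂' V₁ V₂ V₃ W' W hO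
  haveI : IsDiscreteValuationRing (RE P E) := hS.unram.1.dvr
  have hSet : Setting P E M q w :=
    ⟨hS.q_prime, hS.q_not_dvd, NeZero.ne M, hS.lies_over, hS.unram.1.dvr, hS.unif⟩
  have hff := Mod3.H439.leafFF E M q hS.q_prime hS.q_not_dvd
  haveI := hff.hfin
  haveI : FiniteDimensional (baseField (RE P E) (Mod3.x3E E M q)) (FE E (M * q * q)) :=
    Fermat.Agent.A2.H313.finiteDimensional_baseField_of_adjoin E (Mod3.x3E E M q)
  have hxR : Transcendental (RE P E) (Mod3.x3E E M q) := H13.transcendental_RE hff.hx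
  -- the lower coordinate
  obtain ⟨htr, -, -⟩ := H31.deg E M q hS.q_prime hS.q_not_dvd
  have hx'E : Transcendental E (αE E (M * q) q (xE E M q)) := by
    intro halg
    exact htr ((isAlgebraic_algHom_iff (αE E (M * q) q) (αE E (M * q) q).injective).1 halg)
  have hx' : Transcendental (RE P E) (αE E (M * q) q (xE E M q)) :=
    H13.transcendental_RE hx'E
  have hα : ∀ r : RE P E, (αE E (M * q) q : FE E (M * q) →+* FE E (M * q * q))
      (algebraMap (RE P E) (FE E (M * q)) r) = algebraMap (RE P E) (FE E (M * q * q)) r :=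
    fun r => (αE E (M * q) q).commutes (r : E)
  have hc₂ : αE E (M * q) q (xE E M q) ∈
      chart (RE P E) ({Mod3.x3E E M q} : Set (FE E (M * q * q))) :=
    Mod3.H189.chart_α_x3E P E M q hS.q_prime _ (mem_chart_of_mem rfl)
  have hc₁ : Mod3.x3E E M q ∈
      chart (RE P E) ({αE E (M * q) q (xE E M q)} : Set (FE E (M * q * q))) :=
    Fermat.Agent.S36.H747.mem_chart_of_isIntegralOver
      (αE E (M * q) q : FE E (M * q) →+* FE E (M * q * q)) {xE E M q}
      {αE E (M * q) q (xE E M q)}
      (Mod3.H189.chart_map (R := RE P E) (α := αE E (M * q) q) (mem_chart_of_mem rfl))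
      (Mod3.x3E E M q)
      (Mod3.H189.int_α_x3E P E M q hS.q_prime _ (mem_chart_of_mem rfl))
  have hS' : ∀ V' : ValuationSubring (FE E (M * q)), IsSheet w (xE E M q) V' →
      V' = V₁' ∨ V' = V₂' := by
    intro V' hV'
    rw [hO.vzero']
    exact sheets_low hSet hO.vinf' hO.fricke' V' hV'
  obtain ⟨h1, h2⟩ := qep3_of_tower (algebraMap_RE_injective (M * q * q)) hS.unif.prime
    (αE E (M * q) q : FE E (M * q) →+* FE E (M * q * q)) hα hxR hx' hc₁ hc₂
    V₁ V₂ V₃ V₁' V₂' hS' hE₁ hE₂
  exact ⟨h1, h2⟩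

/-- **`LeafQep` from the valuation-level hub `LeafVT`.** -/
theorem leafQep_of_vt (hVT : Mod3.LeafVT) : Mod3.LeafQep :=
  leafQep_of_only fun P E M q _ _ _ w hS V₁' V₂' V₁ V₂ V₃ W' W hO =>
    ⟨fun V _ hV => (hVT P E M q w hS V₁' V₂' V₁ V₂ V₃ W' W hO).only_α₁ V hV,
      fun V _ hV => (hVT P E M q w hS V₁' V₂' V₁ V₂ V₃ W' W hO).only_α₃ V hV⟩

end Fermat.Agent.S36.Mod3.H27

end
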