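import Fermat.Agent.S36.Mod3.H27.VT
import Fermat.Agent.S36.Mod3.H27.LeafQep

/-!
# S36 / MOD3 (helper27): unconditional leaves

* `leafVT  : Mod3.LeafVT`   (`VT.lean`);
* `leafQep : Mod3.LeafQep`  (`LeafQep.lean` fed with the hub).
-/

set_option autoImplicit false

namespace Fermat.Agent.S36.Mod3.H27

/-- **QEP3 (leaf)**, unconditional. -/
theorem leafQep : Mod3.LeafQep := leafQep_of_vt leafVT

end Fermat.Agent.S36.Mod3.H27
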