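import Fermat.Agent.S36.H193.SheetsAll
import Fermat.Agent.S36.Eng.Spec

/-!
# S36 / MOD3, leaf QEP (helper27, independent owner): the abstract core, ROUTE B

Setting: `R` a noetherian domain with `R[X]` integrally closed, `w ∈ R` prime, `F` a field of
characteristic `0`, `x ∈ F` transcendental over `R`, `F` finite over `baseField R x`.
The sheets are the valuation subrings `V` of `F` with `A2.H12.IsSheet w x V`.

* `mul_inv_mem_chart_of_sheets` : an element `b` of the chart with `b / w` in EVERY sheet is
  divisible by `w` in the chart (algebraic Hartogs `A2.H849` + every height-one prime of the chart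
  containing `w` is the centre of a sheet, `S36.H193.isSheet_of_minimal`).
  No hypothesis on the special fibre (multiplicities, singularities): it is a statement about the
  normal noetherian chart only.
* `qep3_fin_of_complete`, `qep3_inf_of_complete`, `qep3_of_complete` : if every sheet is one of
  `V₁, V₂, V₃` then `Eng.Qep3` holds for the finite chart AND for the chart at infinity
  (uniformly: no integrality of the chart at infinity over a smaller level is needed).
-/

set_option autoImplicit false
set_option linter.style.haveILetI false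
set_option linter.unusedSectionVars false

namespace Fermat.Agent.S36.Mod3.H27

open Polynomial
open Fermat.Agent.A2.H12 (IsSheet)
open Fermat.Agent.A2.H849 (IsLocDVR mem_range_of_forall_isLocDVR)
open Fermat.Agent.S18.H138
open Fermat.Agent.S36.H193 (chart_inst isSheet_of_minimal isSheet_inv_iff)
open Fermat.Agent.S36.Eng

universe u

section Hartogs

variable {R : Type u} [CommRing R] [IsDomain R] [IsNoetherianRing R] [IsIntegrallyClosed R[X]]
  {F : Type u} [Field F] [CharZero F] [Algebra R F]

/-- **Full `q`-expansion principle with respect to all sheets** (finite chart).  If `b` lies in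
the chart and `b / w` lies in every sheet, then `b / w` lies in the chart. -/
theorem mul_inv_mem_chart_of_sheets (hinjR : Function.Injective (algebraMap R F)) {w : R}
    (hw : Prime w) {x : F} (hx : Transcendental R x) [FiniteDimensional (baseField R x) F]
    {b : F} (hb : b ∈ chart R ({x} : Set F))
    (h : ∀ V : ValuationSubring F, IsSheet w x V → b * (algebraMap R F w)⁻¹ ∈ V) :
    b * (algebraMap R F w)⁻¹ ∈ chart R ({x} : Set F) := by
  classical
  obtain ⟨hnoeth, hic, hfrac⟩ := chart_inst (R := R) hx
  set C : Subalgebra R F := chart R ({x} : Set F) with hC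
  haveI := hnoeth
  haveI := hic
  haveI : IsFractionRing C F := by
    refine IsFractionRing.of_field C F (fun z => ?_)
    obtain ⟨a, ha, c, hc, -, h⟩ := hfrac z
    exact ⟨⟨a, ha⟩, ⟨c, hc⟩, h⟩
  have hw0 : algebraMap R F w ≠ 0 := fun h0 => hw.ne_zero (hinjR (by rw [h0, map_zero]))
  have hwC0 : algebraMap R C w ≠ 0 := by
    intro h0
    exact hw0 (congrArg Subtype.val h0)
  have hmem : b * (algebraMap R F w)⁻¹ ∈ (algebraMap C F).range := by
    apply mem_range_of_forall_isLocDVR
    intro O P hOP
    haveI := hOP.prime
    have hCO : ∀ c ∈ C, c ∈ O := fun c hc => hOP.le ⟨c, hc⟩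
    by_cases hwP : algebraMap R C w ∈ P
    · -- `O` is a sheet
      have hmin : P ∈ (Ideal.span {algebraMap R C w}).minimalPrimes := by
        refine ⟨⟨hOP.prime, ?_⟩, ?_⟩
        · rw [Ideal.span_le, Set.singleton_subset_iff]
          exact hwP
        · rintro Q ⟨hQ, hQw⟩ hQP
          have hQ0 : Q ≠ ⊥ := by
            intro hbot
            apply hwC0
            have : algebraMap R C w ∈ Q := hQw (Ideal.subset_span rfl)
            rw [hbot, Ideal.mem_bot] at this
            exact this
          exact (hOP.height_one Q hQ hQ0 hQP).ge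
      have hV : ∀ c : C, (c : F) ∈ O.nonunits ↔ c ∈ P := by
        intro c
        constructor
        · intro hc
          by_contra hcP
          have := hOP.inv_mem c hcP
          rw [ValuationSubring.mem_nonunits_iff_or] at hc
          rcases hc with hc | hc
          · apply hcP
            have : c = 0 := Subtype.ext hc
            rw [this]
            exact Ideal.zero_mem _
          · exact hc this
        · intro hcP
          rw [ValuationSubring.mem_nonunits_iff_or]
          by_cases hc0 : c = 0
          · left
            rw [hc0]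
            rfl
          · right
            exact hOP.inv_not_mem c hcP hc0
      exact h O (isSheet_of_minimal w hw hx C (fun _ => Iff.rfl) P hmin O hCO hV)
    · have h1 : (algebraMap R F w)⁻¹ ∈ O := hOP.inv_mem (algebraMap R C w) hwP
      exact O.mul_mem _ _ (hCO b hb) h1
  obtain ⟨c, hc⟩ := hmem
  rw [← hc]
  exact c.2

end Hartogs

section Qep3

variable {R : Type u} [CommRing R] [IsDomain R] [IsNoetherianRing R] [IsIntegrallyClosed R[X]]
  {F : Type u} [Field F] [CharZero F] [Algebra R F]

/-- `Qep3` for the finite chart from completeness of `{V₁, V₂, V₃}`. -/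
theorem qep3_fin_of_complete (hinjR : Function.Injective (algebraMap R F)) {w : R}
    (hw : Prime w) {x : F} (hx : Transcendental R x) [FiniteDimensional (baseField R x) F]
    (V₁ V₂ V₃ : ValuationSubring F)
    (hcomplete : ∀ V : ValuationSubring F, IsSheet w x V → V = V₁ ∨ V = V₂ ∨ V = V₃) :
    Qep3 w (chart R ({x} : Set F)) V₁ V₂ V₃ := by
  intro b h₁ h₂ h₃
  have := mul_inv_mem_chart_of_sheets hinjR hw hx b.2 (fun V hV => by
    rcases hcomplete V hV with rfl | rfl | rfl
    · exact h₁
    · exact h₂
    · exact h₃)
  refine ⟨⟨_, this⟩, ?_⟩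
  have hw0 : algebraMap R F w ≠ 0 := fun h0 => hw.ne_zero (hinjR (by rw [h0, map_zero]))
  apply Subtype.ext
  show (b : F) = algebraMap R F w * ((b : F) * (algebraMap R F w)⁻¹)
  field_simp

/-- `Qep3` for the chart at infinity from completeness of `{V₁, V₂, V₃}`. -/
theorem qep3_inf_of_complete (hinjR : Function.Injective (algebraMap R F)) {w : R}
    (hw : Prime w) {x : F} (hx : Transcendental R x) [FiniteDimensional (baseField R x) F]
    (V₁ V₂ V₃ : ValuationSubring F)
    (hcomplete : ∀ V : ValuationSubring F, IsSheet w x V → V = V₁ ∨ V = V₂ ∨ V = V₃) :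
    Qep3 w (chart R ({x⁻¹} : Set F)) V₁ V₂ V₃ := by
  have hx0 : x ≠ 0 := ne_zero_of_transcendental hx
  haveI : FiniteDimensional (baseField R x⁻¹) F := by
    rw [baseField_inv]
    infer_instance
  exact qep3_fin_of_complete hinjR hw (transcendental_inv hx) V₁ V₂ V₃
    (fun V hV => hcomplete V ((isSheet_inv_iff w hx0 V).1 hV))

/-- **`Qep3` for both charts from completeness.** -/
theorem qep3_of_complete (hinjR : Function.Injective (algebraMap R F)) {w : R}
    (hw : Prime w) {x : F} (hx : Transcendental R x) [FiniteDimensional (baseField R x) F]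
    (V₁ V₂ V₃ : ValuationSubring F)
    (hcomplete : ∀ V : ValuationSubring F, IsSheet w x V → V = V₁ ∨ V = V₂ ∨ V = V₃) :
    Qep3 w (chart R ({x} : Set F)) V₁ V₂ V₃ ∧ Qep3 w (chart R ({x⁻¹} : Set F)) V₁ V₂ V₃ :=
  ⟨qep3_fin_of_complete hinjR hw hx V₁ V₂ V₃ hcomplete,
    qep3_inf_of_complete hinjR hw hx V₁ V₂ V₃ hcomplete⟩

end Qep3

end Fermat.Agent.S36.Mod3.H27
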