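import Fermat.Agent.S36.H994.Plug4
import Fermat.Agent.S36.H878.RegSelf
import Fermat.Agent.S36.Mod3.H816.Table
import Fermat.Agent.S36.Mod3.H189.ChartLeaf

/-!
# MOD3 / REG, route R4 with `t₄`, CONCRETE, `q` odd (helper27): `PrincipalAt` on the middle
component of the finite chart

Mirror of helper890's `Reg9.lean` + `RegMid9.lean` (`q = 2`, Hauptmodul `t₉`) for `q` odd with the
Hauptmodul `t₄` of `Γ₀(4)` (`4 ∣ M` by `Eng.NeatFor`), on top of

* helper878 `RegSelf.lean`  (`principalAt_of_unit_self'`, PU-self from `Qep3`),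
* helper994 `Plug4.lean`    (`reg4_hres`: transfer of the residue from `j` to `t₄`, all Gauss
                             units discharged), `Chart4.lean` (`t₄`, `g₄ = t₄² (t₄ + 16)⁵` in charts),
* helper816 `IsMid.gen_cong` (FROB: `j_{d q²} ≡ j_d mod 𝔪_{V₂}`, `d ∣ M`).

`principalAt_mid_t4` : Concrete objects of `Mod3/Spec.lean` (`Std`, `Objs`), `4 ∣ M`, `q ≠ 2`.
Hypotheses = EXACTLY (R-U) + (R-RES) of LEAFREG PLAN v2 and `Qep3`, `chart ⊆ V_i`; conclusion: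
the middle component of the finite chart is principal at EVERY closed point through which it
passes (triple points included), generator `x = t₄(t^{q²}) - t₄`.

`principalAt_mid_t4_conc` : the same in the delivered shapes of (R-U) (helper356 `PartRegU`) and
(R-RES) (conclusion of helper922 `h922_hres_mid` at `M₁ = M q`, `V = V₂`); TEXTUALLY the
hypotheses of helper890's `principalAt_mid_t9_conc`.
-/

set_option autoImplicit false
set_option linter.style.haveILetI false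
set_option linter.unusedSectionVars false
set_option synthInstance.maxHeartbeats 400000
set_option maxHeartbeats 1600000

noncomputable section

namespace Fermat.Agent.S36.Mod3.H27

open ModularCurve
open Fermat.Agent Fermat.Agent.A2.Mod Fermat.Agent.S36.Eng
open Fermat.Agent.S18.H138 (chart)
open Fermat.Agent.S36.H816

/-! ## Generalities -/

/-- `q ∈ 𝔪_V`, `n` prime to `q` ⟹ `n⁻¹ ∈ V`. -/
theorem natCast_inv_mem_of_coprime27 {L : Type*} [Field L] (V : ValuationSubring L) {q n : ℕ}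
    (hq : ((q : ℕ) : L) ∈ V.nonunits) (hqn : Nat.Coprime q n) : ((n : ℕ) : L)⁻¹ ∈ V := by
  by_contra hn
  have hnV : ((n : ℕ) : L) ∈ V.nonunits := by
    rw [ValuationSubring.mem_nonunits_iff_or]
    by_cases h0 : ((n : ℕ) : L) = 0
    · exact Or.inl h0
    · exact Or.inr hn
  have h1 : (1 : L) = ((Nat.gcdA q n : ℤ) : L) * ((q : ℕ) : L)
      + ((Nat.gcdB q n : ℤ) : L) * ((n : ℕ) : L) := by
    have h := Nat.gcd_eq_gcd_ab q n
    rw [hqn] at h
    have h' := congrArg (fun z : ℤ => (z : L)) h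
    simp only [Nat.cast_one, Int.cast_one, Int.cast_add, Int.cast_mul, Int.cast_natCast] at h'
    rw [h']
    ring
  have h2 : (1 : L) ∈ V.nonunits := by
    rw [h1]
    exact add_mem_nonunits V (mul_mem_nonunits_right V (intCast_mem V _) hq)
      (mul_mem_nonunits_right V (intCast_mem V _) hnV)
  rw [ValuationSubring.mem_nonunits_iff, map_one] at h2
  exact lt_irrefl _ h2

/-- An element with an inverse does not lie in a proper ideal. -/
theorem not_mem_of_mul_eq_one27 {B : Type*} [CommRing B] {g g' : B} (h : g * g' = 1)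
    (𝔪 : Ideal B) (h𝔪 : 𝔪 ≠ ⊤) : g ∉ 𝔪 := by
  intro hg
  apply h𝔪
  rw [Ideal.eq_top_iff_one, ← h]
  exact 𝔪.mul_mem_right g' hg

/-! ## The map `γ = β ∘ β` on the generators -/

section Gamma

variable (E : IntermediateField ℚ A2.Qb) (M q : ℕ) [NeZero M] [NeZero q] [NeZero (M * q)]

theorem γ4_jE27 (d : ℕ) [NeZero d] (hd : d ∣ M) :
    haveI : NeZero (d * q * q) :=
      ⟨mul_ne_zero (mul_ne_zero (NeZero.ne d) (NeZero.ne q)) (NeZero.ne q)⟩
    Fermat.Agent.S36.H994.γ4 E M q (jE E M d hd)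
      = jE E (M * q * q) (d * q * q) (mul_dvd_mul_right (mul_dvd_mul_right hd q) q) := by
  haveI : NeZero (d * q) := ⟨mul_ne_zero (NeZero.ne d) (NeZero.ne q)⟩
  rw [Fermat.Agent.S36.H994.γ4_apply, H553.βE_jE E M q d hd,
    H553.βE_jE E (M * q) q (d * q)]

end Gamma

/-! ## The middle valuation ring -/

section Main

variable {P : ValuationSubring A2.Qb} {E : IntermediateField ℚ A2.Qb} {M q : ℕ}
  [NeZero M] [NeZero q] [NeZero (M * q)] {w : A2.RE P E}
  {V₁' V₂' : ValuationSubring (FE E (M * q))}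
  {V₁ V₂ V₃ : ValuationSubring (FE E (M * q * q))}
  {W' : FE E (M * q) ≃ₐ[E] FE E (M * q)}
  {W : FE E (M * q * q) ≃ₐ[E] FE E (M * q * q)}

/-- `Objs.V₂` is a middle valuation ring in the sense of helper816. -/
theorem isMid_of_objs27 (hStd : Mod3.Std P E M q w)
    (hO : Mod3.Objs P E M q V₁' V₂' V₁ V₂ V₃ W' W) : IsMid V₁' V₂ := by
  have hS : Setting P E M q w := Mod3.H816.setting_of_std hStd
  haveI := hS.dvr
  have hcα : ∀ g : FE E (M * q), heckeAlphaBar E (M * q) q g ∈ V₂ ↔ g ∈ V₁' := fun g => by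
    have h := hO.mid
    have h2 : g ∈ V₂.comap (αE E (M * q) q : FE E (M * q) →+* FE E (M * q * q)) ↔ g ∈ V₁' := by
      rw [h]
    rw [ValuationSubring.mem_comap] at h2
    exact h2
  exact isMid_of_ne hcα hS hO.vinf' hO.fricke' hO.vinf hO.mid_ne

/-- FROB on the middle component: `γ(j_d) ≡ φ(j_d) mod 𝔪_{V₂}` for `d ∣ M`. -/
theorem frob_mid27 (hStd : Mod3.Std P E M q w)
    (hO : Mod3.Objs P E M q V₁' V₂' V₁ V₂ V₃ W' W) (d : ℕ) [NeZero d] (hd : d ∣ M) :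
    Fermat.Agent.S36.H994.γ4 E M q (jE E M d hd)
      - Fermat.Agent.S36.H994.φ4 E M q (jE E M d hd) ∈ V₂.nonunits := by
  have hS : Setting P E M q w := Mod3.H816.setting_of_std hStd
  haveI := hS.dvr
  have hmid : IsMid V₁' V₂ := isMid_of_objs27 hStd hO
  rw [γ4_jE27, Fermat.Agent.S36.H994.φ4_jE]
  exact hmid.gen_cong hS hO.vinf' hO.fricke' d hd

/-- `2⁻¹ ∈ chart R S` at level `M q²` when `q` is odd. -/
theorem two_inv_mem_chart27 (hStd : Mod3.Std P E M q w) (hq2 : q ≠ 2)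
    (S : Set (FE E (M * q * q))) :
    (2 : FE E (M * q * q))⁻¹ ∈ chart (A2.RE P E) S := by
  have hS : Setting P E M q w := Mod3.H816.setting_of_std hStd
  haveI := hS.dvr
  have hcop : Nat.Coprime q 2 := (Nat.coprime_primes hStd.q_prime Nat.prime_two).2 hq2
  have hP : ((2 : ℕ) : A2.Qb)⁻¹ ∈ P := natCast_inv_mem_of_coprime27 P hStd.lies_over hcop
  have hE : ((2 : E))⁻¹ ∈ A2.RE P E := by
    show algebraMap E A2.Qb ((2 : E))⁻¹ ∈ P
    rw [map_inv₀, map_ofNat]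
    rwa [Nat.cast_ofNat] at hP
  have h := Subalgebra.algebraMap_mem (chart (A2.RE P E) S) (⟨(2 : E)⁻¹, hE⟩ : A2.RE P E)
  rw [H13.algebraMap_RE_eq] at h
  rwa [map_inv₀, map_ofNat] at h

/-- **MOD3 / REG, route R4 with `t₄`, concrete, `q` odd.**  With `4 ∣ M` (case `q ≠ 2` of
`NeatFor`), the middle component of the finite chart is principal at EVERY closed point through
which it passes, given (R-U) and (R-RES) of LEAFREG PLAN v2 (`U = U_m`, `6 kk = 12 (q - 1)`). -/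
theorem principalAt_mid_t4 (hStd : Mod3.Std P E M q w)
    (hO : Mod3.Objs P E M q V₁' V₂' V₁ V₂ V₃ W' W) (h4 : 4 ∣ M) (hq2 : q ≠ 2)
    (hB₁ : ∀ b : chart (A2.RE P E) ({Mod3.x3E E M q} : Set (FE E (M * q * q))),
      (b : FE E (M * q * q)) ∈ V₁)
    (hB₂ : ∀ b : chart (A2.RE P E) ({Mod3.x3E E M q} : Set (FE E (M * q * q))),
      (b : FE E (M * q * q)) ∈ V₂)
    (hB₃ : ∀ b : chart (A2.RE P E) ({Mod3.x3E E M q} : Set (FE E (M * q * q))),
      (b : FE E (M * q * q)) ∈ V₃)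
    (hqep : Qep3 w (chart (A2.RE P E) ({Mod3.x3E E M q} : Set (FE E (M * q * q)))) V₁ V₂ V₃)
    (𝔪 : Ideal (chart (A2.RE P E) ({Mod3.x3E E M q} : Set (FE E (M * q * q)))))
    (h𝔪 : 𝔪 ≠ ⊤) (hthr : Through _ 𝔪 V₂)
    -- (R-U)
    (U d : chart (A2.RE P E) ({Mod3.x3E E M q} : Set (FE E (M * q * q)))) (k kk : ℕ)
    (hkk : 0 < kk)
    (hUd : U * d = algebraMap (A2.RE P E) _ w ^ k)
    (hU₁ : (U : FE E (M * q * q))⁻¹ ∈ V₁) (hU₃ : (U : FE E (M * q * q))⁻¹ ∈ V₃)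
    (t : FE E (M * q * q)) (ht : UnifAt V₂ t)
    (hU₂ : UnitAt V₂ ((U : FE E (M * q * q)) * (t ^ (6 * kk))⁻¹))
    -- (R-RES)
    (hres : ((Mod3.jqq E M q - Mod3.j1 E M q) ^ (6 * kk)
        - (Mod3.j1 E M q ^ 4 * (Mod3.j1 E M q - 1728) ^ 3) ^ kk * (U : FE E (M * q * q)))
          * (U : FE E (M * q * q))⁻¹ ∈ V₂.nonunits) :
    PrincipalAt (chart (A2.RE P E) ({Mod3.x3E E M q} : Set (FE E (M * q * q)))) 𝔪 V₂ := by
  have hS : Setting P E M q w := Mod3.H816.setting_of_std hStd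
  haveI := hS.dvr
  have h2 : 2 ∣ M := Dvd.dvd.trans (by norm_num) h4
  haveI : NeZero (1 * q * q) := ⟨mul_ne_zero (mul_ne_zero one_ne_zero (NeZero.ne q)) (NeZero.ne q)⟩
  haveI : NeZero (q * q) := ⟨mul_ne_zero (NeZero.ne q) (NeZero.ne q)⟩
  have hw0 : algebraMap (A2.RE P E) (FE E (M * q * q)) w ≠ 0 := by
    rw [H13.algebraMap_RE_eq]
    refine (map_ne_zero_iff _ (algebraMap E (FE E (M * q * q))).injective).mpr ?_
    intro h
    exact hStd.unif.ne_zero (Subtype.ext h)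
  -- FROB
  have c1 := frob_mid27 hStd hO 1 (one_dvd M)
  have c2 := frob_mid27 hStd hO 2 h2
  have c4 := frob_mid27 hStd hO 4 h4
  -- the two `j`s
  have eφ : Fermat.Agent.S36.H994.φ4 E M q (jE E M 1 (one_dvd M)) = Mod3.j1 E M q := by
    rw [Fermat.Agent.S36.H994.φ4_jE]
    rfl
  have eγ : Fermat.Agent.S36.H994.γ4 E M q (jE E M 1 (one_dvd M)) = Mod3.jqq E M q := by
    rw [γ4_jE27,
      jE_congr (M * q * q) (show 1 * q * q = q * q by rw [one_mul]) _
        (Dvd.intro_left M (mul_assoc M q q).symm)]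
    rfl
  -- transfer of the residue
  have hres4 := Fermat.Agent.S36.H994.reg4_hres hO.vinf' hO.mid h4 c1 c2 c4
    (U : FE E (M * q * q)) kk (by rw [eγ, eφ]; exact hres)
  -- chart membership
  have hj₁B := Mod3.H189.j1_mem_chart P E M q hStd.q_prime
  have hj₂B := Mod3.H189.jqq_mem_chart' P E M q hStd.q_prime
  have h2B := two_inv_mem_chart27 hStd hq2 ({Mod3.x3E E M q} : Set (FE E (M * q * q)))
  have hJ₁ : Mod3.j1 E M q
        * (Fermat.Agent.S36.H994.φ4 E M q (Fermat.Agent.S36.H994.t4E E M h4) ^ 4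
          * (Fermat.Agent.S36.H994.φ4 E M q (Fermat.Agent.S36.H994.t4E E M h4) + 16))
      = (Fermat.Agent.S36.H994.φ4 E M q (Fermat.Agent.S36.H994.t4E E M h4) ^ 2
          + 256 * Fermat.Agent.S36.H994.φ4 E M q (Fermat.Agent.S36.H994.t4E E M h4)
          + 4096) ^ 3 := by
    have h := congrArg (Fermat.Agent.S36.H994.φ4 E M q) (Fermat.Agent.S36.H994.jE_mul_t4E E M h4)
    simp only [map_mul, map_pow, map_add, map_ofNat] at h
    rw [eφ] at h
    exact h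
  have hJ₂ : Mod3.jqq E M q
        * (Fermat.Agent.S36.H994.γ4 E M q (Fermat.Agent.S36.H994.t4E E M h4) ^ 4
          * (Fermat.Agent.S36.H994.γ4 E M q (Fermat.Agent.S36.H994.t4E E M h4) + 16))
      = (Fermat.Agent.S36.H994.γ4 E M q (Fermat.Agent.S36.H994.t4E E M h4) ^ 2
          + 256 * Fermat.Agent.S36.H994.γ4 E M q (Fermat.Agent.S36.H994.t4E E M h4)
          + 4096) ^ 3 := by
    have h := congrArg (Fermat.Agent.S36.H994.γ4 E M q) (Fermat.Agent.S36.H994.jE_mul_t4E E M h4)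
    simp only [map_mul, map_pow, map_add, map_ofNat] at h
    rw [eγ] at h
    exact h
  have hh₁B := Fermat.Agent.S36.H994.mem_chart_of_rel4
    ({Mod3.x3E E M q} : Set (FE E (M * q * q))) hj₁B hJ₁
  have hh₂B := Fermat.Agent.S36.H994.mem_chart_of_rel4
    ({Mod3.x3E E M q} : Set (FE E (M * q * q))) hj₂B hJ₂
  -- the unit `g₄ ^ kk` of the chart
  have hgB : (Fermat.Agent.S36.H994.φ4 E M q (Fermat.Agent.S36.H994.t4E E M h4) ^ 2
      * (Fermat.Agent.S36.H994.φ4 E M q (Fermat.Agent.S36.H994.t4E E M h4) + 16) ^ 5) ^ kk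
      ∈ chart (A2.RE P E) ({Mod3.x3E E M q} : Set (FE E (M * q * q))) :=
    pow_mem (Fermat.Agent.S36.H994.g4_mem_of_mem _ hh₁B) kk
  have hgB' : ((Fermat.Agent.S36.H994.φ4 E M q (Fermat.Agent.S36.H994.t4E E M h4) ^ 2
      * (Fermat.Agent.S36.H994.φ4 E M q (Fermat.Agent.S36.H994.t4E E M h4) + 16) ^ 5) ^ kk)⁻¹
      ∈ chart (A2.RE P E) ({Mod3.x3E E M q} : Set (FE E (M * q * q))) :=
    Fermat.Agent.S36.H994.g4_pow_inv_mem_of_rel4 _ hj₁B hh₁B h2B hJ₁ kk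
  have hg0 : (Fermat.Agent.S36.H994.φ4 E M q (Fermat.Agent.S36.H994.t4E E M h4) ^ 2
      * (Fermat.Agent.S36.H994.φ4 E M q (Fermat.Agent.S36.H994.t4E E M h4) + 16) ^ 5) ^ kk ≠ 0 :=
    pow_ne_zero kk (Fermat.Agent.S36.H994.g4_ne_zero_of_rel4 hJ₁)
  have hgg' : (⟨_, hgB⟩ : chart (A2.RE P E) ({Mod3.x3E E M q} : Set (FE E (M * q * q))))
      * ⟨_, hgB'⟩ = 1 := Subtype.ext (mul_inv_cancel₀ hg0)
  have hg := not_mem_of_mul_eq_one27 hgg' 𝔪 h𝔪
  exact Fermat.Agent.S36.H878.principalAt_of_unit_self' w _ V₁ V₂ V₃ hw0 hB₁ hB₂ hB₃ hqep 𝔪 hthr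
    ((⟨_, hh₂B⟩ : chart (A2.RE P E) ({Mod3.x3E E M q} : Set (FE E (M * q * q)))) - ⟨_, hh₁B⟩)
    U d ⟨_, hgB⟩ k (6 * kk) (by omega) hUd hU₁ hU₃ t ht hU₂ hg hres4

/-- **The same in the delivered shapes** of (R-U) (helper356 `PartRegU`, `U₀ = U_m`) and (R-RES)
(helper922 `h922_hres_mid` at `M₁ = M q`, `V = V₂`): the finite half `regular_f` of
`Mod3.PartReg` (middle disjunct) when `4 ∣ M`, `q ≠ 2`.  Hypotheses TEXTUALLY as in helper890's
`principalAt_mid_t9_conc`. -/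
theorem principalAt_mid_t4_conc (hStd : Mod3.Std P E M q w)
    (hO : Mod3.Objs P E M q V₁' V₂' V₁ V₂ V₃ W' W) (h4 : 4 ∣ M) (hq2 : q ≠ 2)
    (hB₁ : ∀ b : chart (A2.RE P E) ({Mod3.x3E E M q} : Set (FE E (M * q * q))),
      (b : FE E (M * q * q)) ∈ V₁)
    (hB₂ : ∀ b : chart (A2.RE P E) ({Mod3.x3E E M q} : Set (FE E (M * q * q))),
      (b : FE E (M * q * q)) ∈ V₂)
    (hB₃ : ∀ b : chart (A2.RE P E) ({Mod3.x3E E M q} : Set (FE E (M * q * q))),
      (b : FE E (M * q * q)) ∈ V₃)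
    (hqep : Qep3 w (chart (A2.RE P E) ({Mod3.x3E E M q} : Set (FE E (M * q * q)))) V₁ V₂ V₃)
    (hunif : ∃ t : FE E (M * q * q), UnifAt V₂ t)
    -- (R-U)
    (U₀ : FE E (M * q * q)) (k : ℕ)
    (hpair : ∃ U d : chart (A2.RE P E) ({Mod3.x3E E M q} : Set (FE E (M * q * q))),
      (U : FE E (M * q * q)) = U₀ ∧ U * d = algebraMap (A2.RE P E) _ w ^ k)
    (hU₁ : U₀⁻¹ ∈ V₁) (hU₃ : U₀⁻¹ ∈ V₃)
    (hU₂ : ∀ t : FE E (M * q * q), UnifAt V₂ t → UnitAt V₂ (U₀ * (t ^ (12 * (q - 1)))⁻¹))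
    -- (R-RES)
    (hqM : q ∣ M * q)
    (hres : ((βE E (M * q) q (jE E (M * q) q hqM)
          - αE E (M * q) q (jE E (M * q) 1 (one_dvd _))) ^ (12 * (q - 1))
        - αE E (M * q) q ((jE E (M * q) 1 (one_dvd _) ^ 4
            * (jE E (M * q) 1 (one_dvd _) - 1728) ^ 3) ^ (2 * (q - 1))) * U₀) * U₀⁻¹
      ∈ V₂.nonunits)
    (𝔪 : Ideal (chart (A2.RE P E) ({Mod3.x3E E M q} : Set (FE E (M * q * q)))))
    (h𝔪 : 𝔪.IsMaximal) (hthr : Through _ 𝔪 V₂) :
    PrincipalAt (chart (A2.RE P E) ({Mod3.x3E E M q} : Set (FE E (M * q * q)))) 𝔪 V₂ := by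
  obtain ⟨t, ht⟩ := hunif
  obtain ⟨U, d, hUeq, hUd⟩ := hpair
  have hq1 : 0 < 2 * (q - 1) := by
    have := hStd.q_prime.two_le
    omega
  have e6 : 6 * (2 * (q - 1)) = 12 * (q - 1) := by ring
  haveI : NeZero (q * q) := ⟨mul_ne_zero (NeZero.ne q) (NeZero.ne q)⟩
  have ejqq : βE E (M * q) q (jE E (M * q) q hqM) = Mod3.jqq E M q := by
    rw [H553.βE_jE E (M * q) q q hqM]
    rfl
  have ej1 : αE E (M * q) q (jE E (M * q) 1 (one_dvd _)) = Mod3.j1 E M q := by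
    rw [H553.αE_jE E (M * q) q 1 (one_dvd _)]
    rfl
  refine principalAt_mid_t4 hStd hO h4 hq2 hB₁ hB₂ hB₃ hqep 𝔪 h𝔪.ne_top hthr U d k
    (2 * (q - 1)) hq1 hUd (by rw [hUeq]; exact hU₁) (by rw [hUeq]; exact hU₃) t ht
    (by rw [hUeq, e6]; exact hU₂ t ht) ?_
  rw [hUeq, e6]
  rw [ejqq, map_pow, map_mul, map_pow, map_pow, map_sub, map_ofNat, ej1] at hres
  exact hres

end Main

end Fermat.Agent.S36.Mod3.H27

end
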