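import Fermat.Agent.S36.Mod3.H27.SheetsTwo
import Fermat.Agent.A2.Mod.H13.S1
import Fermat.Agent.A2.Mod.H553.VzeroNe
import Fermat.Agent.A2.Mod.H31.Deg
import Fermat.Agent.A2.Mod.H753.IndZero
import Fermat.Agent.A2.H313.Const

/-!
# S36 / MOD3, leaf QEP (helper27): the sheets of level `M q` (concrete)

`sheets_low` : at level `M q` (`q ∤ M`), coordinate `x' = j j_q`, every sheet is `V∞` or
`V₀ = V∞ ∘ W` (from the sub-assembly S1 of cell A2: `p∞ ⊓ p₀ = (w)`).
-/

set_option autoImplicit false
set_option linter.style.haveILetI false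
set_option linter.unusedSectionVars false
set_option synthInstance.maxHeartbeats 400000
set_option maxHeartbeats 1600000

noncomputable section

namespace Fermat.Agent.S36.Mod3.H27

open Polynomial ModularCurve
open Fermat.Agent.A2.H12 (IsSheet)
open Fermat.Agent.S18.H138
open Fermat.Agent.A2.Mod

section GaussSheet

universe u

variable {R : Type u} [CommRing R] [IsDomain R] [IsDiscreteValuationRing R]
  {F : Type u} [Field F] [Algebra R F]

/-- `IsGaussOver` (vocabulary of `A2/H489`) gives `IsSheet` (vocabulary of `A2/H12`). -/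
theorem isSheet_of_isGaussOver {w : R} (hw : Irreducible w) {V : ValuationSubring F} {x : F}
    (h : Fermat.Agent.A2.H489.IsGaussOver R V x) : IsSheet w x V := by
  refine ⟨h.isOver.mem, h.mem, h.isOver.nonunit w ?_, fun P hP => ?_⟩
  · rw [IsLocalRing.mem_maximalIdeal, mem_nonunits_iff]
    exact hw.not_isUnit
  · apply h.inv_aeval_mem
    intro h0
    obtain ⟨i, hi⟩ := hP
    apply hi
    have hd : C w ∣ P := by
      obtain ⟨P', hP'⟩ := Fermat.Agent.A2.H489.exists_eq_C_mul_of_map_residue_eq_zero hw h0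
      exact ⟨P', hP'⟩
    exact (Polynomial.C_dvd_iff_dvd_coeff _ _).1 hd i

end GaussSheet

section Low

variable {P : ValuationSubring Qb} {E : IntermediateField ℚ Qb} {M q : ℕ} [NeZero M] [NeZero q]
  {w : RE P E}

theorem algebraMap_RE_injective (N : ℕ) :
    Function.Injective (algebraMap (RE P E) (FE E N)) := by
  intro a b hab
  have h1 : algebraMap E (FE E N) (a : E) = algebraMap E (FE E N) (b : E) := hab
  exact Subtype.ext ((algebraMap E (FE E N)).injective h1)

/-- **The sheets of level `M q`** are `V∞` and `V₀`. -/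
theorem sheets_low (hS : Setting P E M q w) {V : ValuationSubring (FE E (M * q))}
    {W : FE E (M * q) ≃ₐ[E] FE E (M * q)} (hV : IsVinf P E (M * q) V)
    (hW : IsFricke E (M * q) W) :
    ∀ V' : ValuationSubring (FE E (M * q)), IsSheet w (xE E M q) V' →
      V' = V ∨ V' = V.comap (W : FE E (M * q) →+* FE E (M * q)) := by
  haveI := hS.dvr
  obtain ⟨htr, hfr, -⟩ := H31.deg E M q hS.q_prime hS.q_not_dvd
  have hs1 := H13.s1 (H553.vzeroNe P E M q w) (H31.deg E M q) (H753.indInf P E M q w)
    (H753.indZero P E M q w) hS V W hV hW (xE E M q) (Or.inl rfl)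
  obtain ⟨p₁, p₂, hc₁, hc₂, hp₁, hp₂, -, -, hinf⟩ := hs1
  have hG₁ := H13.isGaussOver_xE hS.unif hV htr
  have hG₂ := H13.isGaussOver_comap_xE hS.unif hV hW htr
  have hxR : Transcendental (RE P E) (xE E M q) := H13.transcendental_RE htr
  haveI : FiniteDimensional (IntermediateField.adjoin E ({xE E M q} : Set (FE E (M * q))))
      (FE E (M * q)) := Module.finite_of_finrank_pos (by
        rw [hfr]
        have := dedekindPsi_pos_of_ne_zero M (NeZero.ne M)
        positivity)
  haveI : FiniteDimensional (baseField (RE P E) (xE E M q)) (FE E (M * q)) :=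
    Fermat.Agent.A2.H313.finiteDimensional_baseField_of_adjoin E (xE E M q)
  exact complete_of_inf_eq (algebraMap_RE_injective (M * q)) hS.unif.prime hxR V
    (V.comap (W : FE E (M * q) →+* FE E (M * q)))
    (isSheet_of_isGaussOver hS.unif hG₁) (isSheet_of_isGaussOver hS.unif hG₂)
    p₁ p₂ hp₁ hp₂ hinf (fun b hb => (hc₁ b).1 hb) (fun b hb => (hc₂ b).1 hb)

end Low

end Fermat.Agent.S36.Mod3.H27

end
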