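import Fermat.Agent.S36.Mod3.H27.Complete

/-!
# S36 / MOD3, leaf QEP (helper27): the sheets of a chart with two reduced components (abstract)

`complete_of_inf_eq` : chart `B = chart R {x}`, primes `p₁, p₂` of `B` with `p₁ ⊓ p₂ = w B`
(reduced special fibre with two components), sheets `V₁, V₂` with `p_i ⊆ B ∩ w V_i`.
Then every sheet is `V₁` or `V₂`.
-/

set_option autoImplicit false
set_option linter.style.haveILetI false
set_option linter.unusedSectionVars false

namespace Fermat.Agent.S36.Mod3.H27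

open Polynomial
open Fermat.Agent.A2.H12 (IsSheet)
open Fermat.Agent.S18.H138
open Fermat.Agent.S36.H193 (centreW mem_centreW sheet_chart_le centre_mem_minimalPrimes
  sheet_eq_of_centre_eq nu_mul_right)

universe u

section Two

variable {R : Type u} [CommRing R] [IsDomain R] {F : Type u} [Field F] [Algebra R F]

/-- The centre of a sheet `V₁` is the prime `p₁` as soon as `p₁ ⊆ B ∩ w V₁`, `p₁` is prime and
contains `w`. -/
theorem centre_eq_of_le {w : R} (hw0 : algebraMap R F w ≠ 0) {x : F} {V₁ : ValuationSubring F}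
    (hs₁ : IsSheet w x V₁)
    (p₁ : Ideal (chart R ({x} : Set F))) (hp₁ : p₁.IsPrime)
    (hw₁ : algebraMap R (chart R ({x} : Set F)) w ∈ p₁)
    (hc₁ : ∀ b : chart R ({x} : Set F), b ∈ p₁ → (b : F) * (algebraMap R F w)⁻¹ ∈ V₁) :
    centreW V₁ (chart R ({x} : Set F)) (sheet_chart_le hs₁) = p₁ := by
  have hle : p₁ ≤ centreW V₁ (chart R ({x} : Set F)) (sheet_chart_le hs₁) := by
    intro b hb
    rw [mem_centreW]
    have h1 := hc₁ b hb
    have hwn : algebraMap R F w ∈ V₁.nonunits := hs₁.2.2.1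
    have : (b : F) = algebraMap R F w * ((b : F) * (algebraMap R F w)⁻¹) := by
      field_simp
    rw [this]
    exact nu_mul_right V₁ hwn h1
  have hmin := centre_mem_minimalPrimes hs₁
  have hspan : Ideal.span {algebraMap R (chart R ({x} : Set F)) w} ≤ p₁ := by
    rw [Ideal.span_le, Set.singleton_subset_iff]
    exact hw₁
  exact le_antisymm (hmin.2 ⟨hp₁, hspan⟩ hle) hle

variable [IsNoetherianRing R] [IsIntegrallyClosed R[X]] [CharZero F]

/-- **Two reduced components ⟹ two sheets.** -/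
theorem complete_of_inf_eq (hinjR : Function.Injective (algebraMap R F)) {w : R} (hw : Prime w)
    {x : F} (hx : Transcendental R x) [FiniteDimensional (baseField R x) F]
    (V₁ V₂ : ValuationSubring F) (hs₁ : IsSheet w x V₁) (hs₂ : IsSheet w x V₂)
    (p₁ p₂ : Ideal (chart R ({x} : Set F))) (hp₁ : p₁.IsPrime) (hp₂ : p₂.IsPrime)
    (hinf : p₁ ⊓ p₂ = Ideal.span {algebraMap R (chart R ({x} : Set F)) w})
    (hc₁ : ∀ b : chart R ({x} : Set F), b ∈ p₁ → (b : F) * (algebraMap R F w)⁻¹ ∈ V₁)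
    (hc₂ : ∀ b : chart R ({x} : Set F), b ∈ p₂ → (b : F) * (algebraMap R F w)⁻¹ ∈ V₂) :
    ∀ V : ValuationSubring F, IsSheet w x V → V = V₁ ∨ V = V₂ := by
  intro V hV
  have hw0 : algebraMap R F w ≠ 0 := fun h0 => hw.ne_zero (hinjR (by rw [h0, map_zero]))
  have hwinf : algebraMap R (chart R ({x} : Set F)) w ∈ p₁ ⊓ p₂ := by
    rw [hinf]
    exact Ideal.subset_span rfl
  have h₁ := centre_eq_of_le hw0 hs₁ p₁ hp₁ hwinf.1 hc₁
  have h₂ := centre_eq_of_le hw0 hs₂ p₂ hp₂ hwinf.2 hc₂
  set p := centreW V (chart R ({x} : Set F)) (sheet_chart_le hV) with hp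
  have hmin := centre_mem_minimalPrimes hV
  have hpp : p.IsPrime := hmin.1.1
  have hle : p₁ ⊓ p₂ ≤ p := by
    rw [hinf]
    exact hmin.1.2
  have hspan₁ : Ideal.span {algebraMap R (chart R ({x} : Set F)) w} ≤ p₁ := by
    rw [← hinf]; exact inf_le_left
  have hspan₂ : Ideal.span {algebraMap R (chart R ({x} : Set F)) w} ≤ p₂ := by
    rw [← hinf]; exact inf_le_right
  rcases (Ideal.IsPrime.inf_le hpp).1 hle with h | h
  · left
    have : p = p₁ := le_antisymm (hmin.2 ⟨hp₁, hspan₁⟩ h) h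
    exact sheet_eq_of_centre_eq hinjR hw hx hV hs₁ (by rw [← hp, this, h₁])
  · right
    have : p = p₂ := le_antisymm (hmin.2 ⟨hp₂, hspan₂⟩ h) h
    exact sheet_eq_of_centre_eq hinjR hw hx hV hs₂ (by rw [← hp, this, h₂])

end Two

end Fermat.Agent.S36.Mod3.H27
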