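import Fermat.Agent.S36.Mod3.SpecVT
import Fermat.Agent.S36.Mod3.H816.Table
import Fermat.Agent.S36.H83.AlphaVV
import Fermat.Agent.S36.H972.Mod3Alpha

/-!
# S36 / MOD3, the valuation-level hub (helper27): `leafVT : Mod3.LeafVT`, unconditional

Assembly from pieces on main:

* `α`-side (`res_α₁`, `res_α₂`, `only_α₁`, `pi_unif`, `pi_pow`): helper972 `mod3_alpha_main`
  (every `Objs.V₂` IS the middle valuation ring of that theorem);
* `only_α₃`, `insep_α₃`, `only_β₁`, `insep_β₁`: helper83 (`AlphaVV`, `BetaUniq`);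
* `res_β₃`, `res_β₂`, `only_β₂`: Fricke transport `W ∘ α = β ∘ W'`, `W ∘ β = α ∘ W'`
  (`V₃ = V₁ ∘ W`, `V₂ ∘ W = V₂` by completeness along `α` and helper816 `IsMid.fricke`);
* `kron₁`, `kron₂`, `kron₃`: helper816 (`kron_jE`, `IsMid.kronA`, `IsMid.pi_mem`).
-/

set_option autoImplicit false
set_option linter.style.haveILetI false
set_option linter.unusedSectionVars false
set_option synthInstance.maxHeartbeats 400000
set_option maxHeartbeats 1600000

noncomputable section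

namespace Fermat.Agent.S36.Mod3.H27

open ModularCurve
open Fermat.Agent.A2.Mod
open Fermat.Agent.S36.Eng

/-! ## Generalities on valuation subrings -/

section Gen

variable {F : Type*} [Field F]

/-- `x w⁻¹ ∈ V`, `w ∈ 𝔪_V`, `w ≠ 0` ⟹ `x ∈ 𝔪_V`. -/
theorem vt27_mem_nonunits_of_mul_inv {V : ValuationSubring F} {x w : F} (hw0 : w ≠ 0)
    (hw : w ∈ V.nonunits) (h : x * w⁻¹ ∈ V) : x ∈ V.nonunits := by
  have e : x = x * w⁻¹ * w := by field_simp
  rw [e]
  exact Fermat.Agent.S36.H816.mul_mem_nonunits_right V h hw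

theorem vt27_isUnif_mem_nonunits {V : ValuationSubring F} {ϖ : F}
    (h : Fermat.Agent.A2.H48.IsUnif V ϖ) : ϖ ∈ V.nonunits := by
  rw [ValuationSubring.mem_nonunits_iff_or]
  exact Or.inr h.inv_not_mem

theorem vt27_unifAt_of_isUnif {V : ValuationSubring F} {ϖ : F}
    (h : Fermat.Agent.A2.H48.IsUnif V ϖ) : UnifAt V ϖ := by
  refine ⟨h.ne_zero, vt27_isUnif_mem_nonunits h, fun f hf => ?_⟩
  have hfV : f ∈ V := Fermat.Agent.S36.H816.mem_of_mem_nonunits V hf
  rw [ValuationSubring.mem_nonunits_iff_or] at hf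
  rcases hf with rfl | hf
  · rw [zero_mul]
    exact V.zero_mem
  · exact h.gen f hfV hf

/-- comap along an involution, twice. -/
theorem vt27_comap_comap {V : ValuationSubring F} {φ : F →+* F} (hφ : ∀ f, φ (φ f) = f) :
    (V.comap φ).comap φ = V := by
  ext f
  rw [ValuationSubring.mem_comap, ValuationSubring.mem_comap, hφ]

end Gen

/-! ## The concrete assembly -/

section Concrete

variable {P : ValuationSubring A2.Qb} {E : IntermediateField ℚ A2.Qb} {M q : ℕ}
  [NeZero M] [NeZero q] [NeZero (M * q)]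

/-- `Std` gives the unramifiedness hypothesis of helper972: `q = w · unit` in `R_E`. -/
theorem vt27_unram {w : A2.RE P E} (h : Mod3.Std P E M q w) :
    Fermat.Agent.S36.H972.Unram P E q w := by
  haveI : IsDiscreteValuationRing (A2.RE P E) := h.unram.1.dvr
  have hw0 : (w : E) ≠ 0 := fun h0 => h.unif.ne_zero (Subtype.ext h0)
  have hq0 : ((q : ℕ) : E) ≠ 0 := Nat.cast_ne_zero.mpr (NeZero.ne q)
  have hq0' : ((q : ℕ) : A2.Qb) ≠ 0 := Nat.cast_ne_zero.mpr (NeZero.ne q)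
  -- `w` is a nonunit of `P`
  have hwn : ((w : E) : A2.Qb) ∈ P.nonunits := by
    rw [ValuationSubring.mem_nonunits_iff_or]
    right
    intro hinv
    apply h.unif.not_isUnit
    refine isUnit_iff_exists_inv.mpr ⟨⟨(w : E)⁻¹, ?_⟩, Subtype.ext ?_⟩
    · show algebraMap E A2.Qb ((w : E)⁻¹) ∈ P
      rw [map_inv₀]
      exact hinv
    · show (w : E) * (w : E)⁻¹ = 1
      exact mul_inv_cancel₀ hw0
  have h1 : ((w : E) : A2.Qb) * ((q : A2.Qb))⁻¹ ∈ P := h.unram.2 (w : E) hwn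
  -- `q` lies in the maximal ideal of `R_E`
  have hqmem : ((q : ℕ) : E) ∈ A2.RE P E := natCast_mem (A2.RE P E) q
  have hqm : (⟨((q : ℕ) : E), hqmem⟩ : A2.RE P E) ∈ IsLocalRing.maximalIdeal (A2.RE P E) := by
    rw [IsLocalRing.mem_maximalIdeal, mem_nonunits_iff]
    intro hu
    obtain ⟨b, hb⟩ := isUnit_iff_exists_inv.mp hu
    have hb' : ((q : ℕ) : E) * (b : E) = 1 := congrArg Subtype.val hb
    have hbq : (b : E) = ((q : ℕ) : E)⁻¹ := eq_inv_of_mul_eq_one_right hb'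
    have hbP : algebraMap E A2.Qb (b : E) ∈ P := b.2
    rw [hbq, map_inv₀, map_natCast] at hbP
    have hl : ((q : ℕ) : A2.Qb) ∈ P.nonunits := h.lies_over
    rw [ValuationSubring.mem_nonunits_iff_or] at hl
    rcases hl with hl | hl
    · exact hq0' hl
    · exact hl hbP
  rw [Irreducible.maximalIdeal_eq h.unif, Ideal.mem_span_singleton'] at hqm
  obtain ⟨a, ha⟩ := hqm
  have ha' : (a : E) * (w : E) = ((q : ℕ) : E) := congrArg Subtype.val ha
  have ha0 : (a : E) ≠ 0 := by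
    intro h0
    rw [h0, zero_mul] at ha'
    exact hq0 ha'.symm
  have hainv : (a : E)⁻¹ ∈ A2.RE P E := by
    show algebraMap E A2.Qb ((a : E)⁻¹) ∈ P
    have e : (a : E)⁻¹ = (w : E) * (((q : ℕ) : E))⁻¹ := by
      rw [← ha']
      field_simp
    rw [e, map_mul, map_inv₀, map_natCast]
    exact h1
  refine ⟨⟨a, ⟨(a : E)⁻¹, hainv⟩, Subtype.ext (mul_inv_cancel₀ ha0),
    Subtype.ext (inv_mul_cancel₀ ha0)⟩, ?_⟩
  show ((q : ℕ) : E) = (w : E) * (a : E)
  rw [← ha', mul_comm]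

/-- **The valuation-level hub**, unconditional. -/
theorem leafVT : Mod3.LeafVT := by
  intro P E M q _ _ _ w hStd V₁' V₂' V₁ V₂ V₃ W' W hO
  have hS : Setting P E M q w := Mod3.H816.setting_of_std hStd
  haveI : IsDiscreteValuationRing (RE P E) := hS.dvr
  have hq : q.Prime := hS.q_prime
  have hqMq : q ∣ M * q := dvd_mul_left q M
  have hun := vt27_unram hStd
  obtain ⟨Vmid, hne, -, hunif, ⟨u, hu, hui, hpow⟩, hresm, hres1, honly⟩ :=
    Fermat.Agent.S36.H972.mod3_alpha_main hS hun hO.vinf' hO.vinf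
  -- `V₂` is the middle valuation ring
  have hcα : ∀ g : FE E (M * q), αE E (M * q) q g ∈ V₂ ↔ g ∈ V₁' := fun g => by
    have h2 : g ∈ V₂.comap (αE E (M * q) q : FE E (M * q) →+* FE E (M * q * q)) ↔ g ∈ V₁' := by
      rw [hO.mid]
    rw [ValuationSubring.mem_comap] at h2
    exact h2
  have hV₂ : V₂ = Vmid := (honly V₂ hcα).resolve_left hO.mid_ne
  subst hV₂
  have hmid : Fermat.Agent.S36.H816.IsMid V₁' V₂ :=
    Fermat.Agent.S36.H816.isMid_of_ne hcα hS hO.vinf' hO.fricke' hO.vinf hO.mid_ne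
  -- Fricke
  have hW2 : ∀ f, W (W f) = f := hO.fricke.2
  have hW'2 : ∀ f, W' (W' f) = f := hO.fricke'.2
  have hfc := fun g => H553.frickeCompat E (M * q) q W' W hO.fricke' hO.fricke g
  have hV₃ : ∀ f, f ∈ V₃ ↔ W f ∈ V₁ := fun f => by
    rw [hO.vzero, ValuationSubring.mem_comap]
    rfl
  have hV₃n : ∀ f, f ∈ V₃.nonunits ↔ W f ∈ V₁.nonunits := fun f => by
    rw [hO.vzero, Fermat.Agent.S36.H816.mem_nonunits_comap_iff]
    rfl
  have hV₂' : ∀ g, g ∈ V₂' ↔ W' g ∈ V₁' := fun g => by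
    rw [hO.vzero', ValuationSubring.mem_comap]
    rfl
  -- the uniformiser `w`
  have hL2 := H553.vinfBasic P E w (M * q * q) (NeZero.ne _) hS.dvr hS.unif V₁ hO.vinf
  have hw0 : cE P E (M * q * q) w ≠ 0 := hL2.1.ne_zero
  have hw1 : cE P E (M * q * q) w ∈ V₁.nonunits := vt27_isUnif_mem_nonunits hL2.1
  have hWw : W (cE P E (M * q * q) w) = cE P E (M * q * q) w := W.commutes (w : E)
  have hw3 : cE P E (M * q * q) w ∈ V₃.nonunits := by
    rw [hV₃n, hWw]
    exact hw1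
  have hπ0 : Mod3.jqq E M q - Mod3.j1 E M q ≠ 0 := hunif.ne_zero
  have hπn : Mod3.jqq E M q - Mod3.j1 E M q ∈ V₂.nonunits := vt27_isUnif_mem_nonunits hunif
  -- completeness along `α`
  have only_α₁ : ∀ V : ValuationSubring (FE E (M * q * q)),
      V.comap (αE E (M * q) q : FE E (M * q) →+* FE E (M * q * q)) = V₁' →
        V = V₁ ∨ V = V₂ := fun V hV => by
    refine honly V fun k => ?_
    have h2 : k ∈ V.comap (αE E (M * q) q : FE E (M * q) →+* FE E (M * q * q)) ↔ k ∈ V₁' := by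
      rw [hV]
    rw [ValuationSubring.mem_comap] at h2
    exact h2
  have only_α₃ : ∀ V : ValuationSubring (FE E (M * q * q)),
      V.comap (αE E (M * q) q : FE E (M * q) →+* FE E (M * q * q)) = V₂' → V = V₃ :=
    fun V hV => by
    rw [hO.vzero]
    refine Fermat.Agent.S36.H83.h83_alpha_unique W' W hS.dvr hS.unif hq hqMq hO.fricke'
      hO.fricke hO.vinf' hO.vinf V fun f => ?_
    have h2 : f ∈ V.comap (αE E (M * q) q : FE E (M * q) →+* FE E (M * q * q)) ↔ f ∈ V₂' := by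
      rw [hV]
    rw [ValuationSubring.mem_comap, hO.vzero'] at h2
    exact h2
  -- `V₂ ∘ W = V₂`
  have hmidW := hmid.fricke hS hO.vinf' hO.fricke' hO.fricke
  have hV₂W : V₂.comap (W : FE E (M * q * q) →+* FE E (M * q * q)) = V₂ := by
    rcases honly _ hmidW.comap_alpha with h1 | h1
    · exfalso
      -- then `V₂ = V₁ ∘ W = V₃`, which lies over `V₂' ≠ V₁'`
      have h2 : V₂ = V₃ := by
        rw [hO.vzero, ← h1]
        exact (vt27_comap_comap (φ := (W : FE E (M * q * q) →+* FE E (M * q * q))) hW2).symm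
      have h3 : V₁' = V₂' := by
        ext g
        rw [← hcα g, h2, hV₃, (hfc g).1, hV₂']
        exact Fermat.Agent.S36.H816.beta_mem_iff hO.vinf' hO.vinf (W' g)
      exact H553.vzeroNe P E M q w hS V₁' W' hO.vinf' hO.fricke' (by rw [← hO.vzero', ← h3])
    · exact h1
  have hV₂Wm : ∀ f, W f ∈ V₂ ↔ f ∈ V₂ := fun f => by
    conv_rhs => rw [← hV₂W]
    rfl
  have hV₂Wn : ∀ f, W f ∈ V₂.nonunits ↔ f ∈ V₂.nonunits := fun f => by
    conv_rhs => rw [← hV₂W, Fermat.Agent.S36.H816.mem_nonunits_comap_iff]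
    rfl
  have hkey : ∀ (d : ℕ) [NeZero d] (hd : d ∣ M * q * q), d = q →
      jE E (M * q * q) d hd = Mod3.jq E M q := by
    intro d _ hd h
    subst h
    rfl
  -- residue degree one along `α`
  have res_α₁ : ∀ f ∈ V₁, ∃ g ∈ V₁', f - αE E (M * q) q g ∈ V₁.nonunits := fun f hf => by
    obtain ⟨g, hg, hfg⟩ := hres1 f hf
    exact ⟨g, hg, vt27_mem_nonunits_of_mul_inv hw0 hw1 hfg⟩
  have res_α₂ : ∀ f ∈ V₂, ∃ g ∈ V₁', f - αE E (M * q) q g ∈ V₂.nonunits := fun f hf => by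
    obtain ⟨g, hg, hfg⟩ := hresm f hf
    exact ⟨g, hg, vt27_mem_nonunits_of_mul_inv hπ0 hπn hfg⟩
  refine
    { res_α₁ := res_α₁
      res_α₂ := res_α₂
      res_β₃ := ?_
      res_β₂ := ?_
      insep_α₃ := ?_
      insep_β₁ := ?_
      only_α₁ := only_α₁
      only_α₃ := only_α₃
      only_β₂ := ?_
      only_β₁ := ?_
      pi_unif := vt27_unifAt_of_isUnif hunif
      pi_pow := ?_
      kron₁ := ?_
      kron₂ := ?_
      kron₃ := ?_ }
  · -- res_β₃
    intro f hf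
    obtain ⟨g, hg, hfg⟩ := res_α₁ (W f) ((hV₃ f).mp hf)
    refine ⟨W' g, (hV₂' _).mpr (by rw [hW'2]; exact hg), ?_⟩
    rw [hV₃n, map_sub, (hfc (W' g)).2, hW'2]
    exact hfg
  · -- res_β₂
    intro f hf
    obtain ⟨g, hg, hfg⟩ := res_α₂ (W f) ((hV₂Wm f).mpr hf)
    refine ⟨W' g, (hV₂' _).mpr (by rw [hW'2]; exact hg), ?_⟩
    rw [← hV₂Wn, map_sub, (hfc (W' g)).2, hW'2]
    exact hfg
  · -- insep_α₃
    intro f hf
    have hf' : f ∈ Fermat.Agent.S36.H83.h83_comapW V₁ W := by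
      have hf2 := hf
      rw [hO.vzero] at hf2
      exact hf2
    obtain ⟨g, hg, hfg⟩ := Fermat.Agent.S36.H83.h83_alpha_insep W' W hS.dvr hS.unif hq hqMq
      hS.lies_over hO.fricke' hO.fricke hO.vinf' hO.vinf hf'
    refine ⟨g, by rw [hO.vzero']; exact hg, ?_⟩
    have hfg' : (f ^ q - αE E (M * q) q g) * (cE P E (M * q * q) w)⁻¹ ∈ V₃ := by
      rw [hO.vzero]
      exact hfg
    exact vt27_mem_nonunits_of_mul_inv hw0 hw3 hfg'
  · -- insep_β₁
    intro f hf
    obtain ⟨g, hg, hfg⟩ := Fermat.Agent.S36.H83.h83_beta_insep hS.dvr hS.unif hq hqMq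
      hS.lies_over hO.vinf' hO.vinf hf
    exact ⟨g, hg, vt27_mem_nonunits_of_mul_inv hw0 hw1 hfg⟩
  · -- only_β₂
    intro V hV
    have hVm : ∀ g, βE E (M * q) q g ∈ V ↔ g ∈ V₂' := fun g => by
      have h2 : g ∈ V.comap (βE E (M * q) q : FE E (M * q) →+* FE E (M * q * q)) ↔ g ∈ V₂' := by
        rw [hV]
      rw [ValuationSubring.mem_comap] at h2
      exact h2
    have h1 : (V.comap (W : FE E (M * q * q) →+* FE E (M * q * q))).comap
        (αE E (M * q) q : FE E (M * q) →+* FE E (M * q * q)) = V₁' := by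
      ext g
      rw [ValuationSubring.mem_comap, ValuationSubring.mem_comap]
      show W (αE E (M * q) q g) ∈ V ↔ g ∈ V₁'
      rw [(hfc g).1, hVm, hV₂', hW'2]
    have hVV : (V.comap (W : FE E (M * q * q) →+* FE E (M * q * q))).comap
        (W : FE E (M * q * q) →+* FE E (M * q * q)) = V :=
      vt27_comap_comap (φ := (W : FE E (M * q * q) →+* FE E (M * q * q))) hW2
    rcases only_α₁ _ h1 with h2 | h2
    · left
      rw [← hVV, h2, hO.vzero]
    · right
      rw [← hVV, h2, hV₂W]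
  · -- only_β₁
    intro V hV
    refine Fermat.Agent.S36.H83.h83_beta_unique hS.dvr hS.unif hq hqMq hO.vinf' hO.vinf V
      fun f => ?_
    have h2 : f ∈ V.comap (βE E (M * q) q : FE E (M * q) →+* FE E (M * q * q)) ↔ f ∈ V₁' := by
      rw [hV]
    rw [ValuationSubring.mem_comap] at h2
    exact h2
  · -- pi_pow
    have hu0 : u ≠ 0 := by
      intro h0
      rw [h0, mul_zero] at hpow
      exact pow_ne_zero _ hπ0 hpow
    have e : algebraMap (A2.RE P E) (FE E (M * q * q)) w *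
        ((Mod3.jqq E M q - Mod3.j1 E M q) ^ (q - 1))⁻¹ = u⁻¹ := by
      show cE P E (M * q * q) w * ((Mod3.jqq E M q - Mod3.j1 E M q) ^ (q - 1))⁻¹ = u⁻¹
      have hpow' : (Mod3.jqq E M q - Mod3.j1 E M q) ^ (q - 1) = cE P E (M * q * q) w * u := hpow
      rw [hpow']
      field_simp
    rw [e]
    exact ⟨inv_ne_zero hu0, hui, by rw [inv_inv]; exact hu⟩
  · -- kron₁
    refine ⟨?_, ?_⟩
    · have h1 := Fermat.Agent.S36.H816.kron_jE hq hS.lies_over hO.vinf 1 (one_dvd _)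
        (by rw [one_mul]; exact Dvd.intro_left (M * q) rfl)
      rw [hkey (1 * q) _ (one_mul q)] at h1
      exact h1
    · exact Fermat.Agent.S36.H816.kron_jE hq hS.lies_over hO.vinf q
        (Dvd.intro_left (M * q) rfl) ⟨M, by ring⟩
  · -- kron₂
    refine ⟨?_, ?_⟩
    · have h1 := hmid.kronA hq hS.lies_over hO.vinf' 1 (one_dvd _)
      rw [hkey (1 * q) _ (one_mul q)] at h1
      exact h1
    · exact hmid.pi_mem
  · -- kron₃
    have hdM : M ∣ M * q * q := ⟨q * q, by ring⟩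
    have hdMq : M * q ∣ M * q * q := ⟨q, rfl⟩
    have hW1 : W (Mod3.j1 E M q) = jE E (M * q * q) (M * q * q) dvd_rfl :=
      hO.fricke.1 1 (M * q * q) _ dvd_rfl (by ring)
    have hWq : W (Mod3.jq E M q) = jE E (M * q * q) (M * q) hdMq :=
      hO.fricke.1 q (M * q) _ hdMq (by ring)
    have hWqq : W (Mod3.jqq E M q) = jE E (M * q * q) M hdM :=
      hO.fricke.1 (q * q) M _ hdM (by ring)
    refine ⟨?_, ?_⟩
    · rw [hV₃n, map_sub, map_pow, hW1, hWq]
      exact Fermat.Agent.S36.H816.kron_jE hq hS.lies_over hO.vinf (M * q) hdMq dvd_rfl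
    · rw [hV₃n, map_sub, map_pow, hWq, hWqq]
      exact Fermat.Agent.S36.H816.kron_jE hq hS.lies_over hO.vinf M hdM hdMq

end Concrete

end Fermat.Agent.S36.Mod3.H27

end
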